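/-
GATE-Z / node (CUT), file 1: the residue map of a valuation subring `A ≤ K`, extended by `0` to
all of `K` (`resK`), with the rules of computation on `A`.
-/
import Mathlib.RingTheory.Valuation.ValuationSubring
import Mathlib.RingTheory.LocalRing.ResidueField.Basic

set_option autoImplicit false

namespace Fermat.Agent.GZ.Cut

open IsLocalRing

variable {K : Type*} [Field K] (A : ValuationSubring K)

/-- the residue map `A → k` extended by `0` outside `A` -/
noncomputable def resK (z : K) : ResidueField A := by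
  classical exact if h : z ∈ A then residue A ⟨z, h⟩ else 0

theorem resK_of_mem {z : K} (h : z ∈ A) : resK A z = residue A ⟨z, h⟩ := by
  classical
  unfold resK
  rw [dif_pos h]

theorem resK_zero : resK A 0 = 0 := by
  rw [resK_of_mem A A.zero_mem]
  exact map_zero (residue A)

theorem resK_one : resK A 1 = 1 := by
  rw [resK_of_mem A A.one_mem]
  exact map_one (residue A)

variable {A}

theorem resK_add {x y : K} (hx : x ∈ A) (hy : y ∈ A) : resK A (x + y) = resK A x + resK A y := by
  rw [resK_of_mem A hx, resK_of_mem A hy, resK_of_mem A (A.add_mem _ _ hx hy), ← map_add]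
  rfl

theorem resK_mul {x y : K} (hx : x ∈ A) (hy : y ∈ A) : resK A (x * y) = resK A x * resK A y := by
  rw [resK_of_mem A hx, resK_of_mem A hy, resK_of_mem A (A.mul_mem _ _ hx hy), ← map_mul]
  rfl

theorem resK_neg {x : K} (hx : x ∈ A) : resK A (-x) = -resK A x := by
  rw [resK_of_mem A hx, resK_of_mem A (A.neg_mem _ hx), ← map_neg]
  rfl

theorem resK_sub {x y : K} (hx : x ∈ A) (hy : y ∈ A) : resK A (x - y) = resK A x - resK A y := by
  rw [sub_eq_add_neg, resK_add hx (A.neg_mem _ hy), resK_neg hy, ← sub_eq_add_neg]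

theorem resK_pow {x : K} (hx : x ∈ A) (n : ℕ) : resK A (x ^ n) = resK A x ^ n := by
  rw [resK_of_mem A hx, resK_of_mem A (pow_mem hx n), ← map_pow]
  rfl

theorem intCast_mem' (n : ℤ) : (n : K) ∈ A := by
  exact intCast_mem A n

theorem resK_intCast (n : ℤ) : resK A (n : K) = (n : ResidueField A) := by
  rw [resK_of_mem A (intCast_mem' n)]
  have e : (⟨(n : K), intCast_mem' n⟩ : A) = (n : A) := Subtype.ext (by simp)
  rw [e, map_intCast]

theorem natCast_mem' (n : ℕ) : (n : K) ∈ A := by
  exact natCast_mem A n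

theorem resK_natCast (n : ℕ) : resK A (n : K) = (n : ResidueField A) := by
  have := resK_intCast (A := A) (n : ℤ)
  simpa using this

theorem resK_ofNat (n : ℕ) [n.AtLeastTwo] : resK A (OfNat.ofNat n : K) = OfNat.ofNat n := by
  rw [← Nat.cast_ofNat (R := K), resK_natCast, Nat.cast_ofNat]

theorem resK_eq_zero_iff {z : K} (hz : z ∈ A) : resK A z = 0 ↔ z ∈ A.nonunits := by
  rw [resK_of_mem A hz, residue_eq_zero_iff, ValuationSubring.mem_nonunits_iff_exists_mem_maximalIdeal]
  exact ⟨fun h => ⟨hz, h⟩, fun ⟨_, h⟩ => h⟩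

theorem resK_eq_of_sub_mem {x y : K} (hx : x ∈ A) (hy : y ∈ A) (h : x - y ∈ A.nonunits) :
    resK A x = resK A y := by
  have := (resK_eq_zero_iff (sub_mem hx hy)).2 h
  rw [resK_sub hx hy] at this
  exact sub_eq_zero.1 this

theorem inv_mem_of_unit {y : K} (hy : y ∈ A) (hyu : y ∉ A.nonunits) : y⁻¹ ∈ A := by
  rw [← ValuationSubring.valuation_le_one_iff, map_inv₀]
  have h1 : A.valuation y = 1 := by
    apply le_antisymm ((ValuationSubring.valuation_le_one_iff A _).2 hy)
    by_contra hlt
    push Not at hlt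
    exact hyu ((ValuationSubring.mem_nonunits_iff A).2 hlt)
  rw [h1, inv_one]

theorem resK_ne_zero {y : K} (hy : y ∈ A) (hyu : y ∉ A.nonunits) : resK A y ≠ 0 :=
  fun h => hyu ((resK_eq_zero_iff hy).1 h)

theorem resK_inv {y : K} (hy : y ∈ A) (hyu : y ∉ A.nonunits) : resK A y⁻¹ = (resK A y)⁻¹ := by
  have hy0 : y ≠ 0 := by
    rintro rfl
    apply hyu
    rw [ValuationSubring.mem_nonunits_iff, map_zero]
    exact zero_lt_one
  have h1 : resK A y⁻¹ * resK A y = 1 := by
    rw [← resK_mul (inv_mem_of_unit hy hyu) hy, inv_mul_cancel₀ hy0, resK_one]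
  exact eq_inv_of_mul_eq_one_left h1

theorem resK_div {x y : K} (hx : x ∈ A) (hy : y ∈ A) (hyu : y ∉ A.nonunits) :
    resK A (x / y) = resK A x / resK A y := by
  rw [div_eq_mul_inv, resK_mul hx (inv_mem_of_unit hy hyu), resK_inv hy hyu, div_eq_mul_inv]

theorem div_mem_of_unit {x y : K} (hx : x ∈ A) (hy : y ∈ A) (hyu : y ∉ A.nonunits) : x / y ∈ A := by
  rw [div_eq_mul_inv]
  exact A.mul_mem _ _ hx (inv_mem_of_unit hy hyu)

/-- membership in `A` / in `𝔪` in terms of the valuation -/
theorem mem_of_val_le {z : K} (h : A.valuation z ≤ 1) : z ∈ A :=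
  (ValuationSubring.valuation_le_one_iff A _).1 h

theorem mem_nu_of_val_lt {z : K} (h : A.valuation z < 1) : z ∈ A.nonunits :=
  (ValuationSubring.mem_nonunits_iff A).2 h

theorem notMem_nu_of_val_eq {z : K} (h : A.valuation z = 1) : z ∉ A.nonunits := fun hz =>
  absurd ((ValuationSubring.mem_nonunits_iff A).1 hz) (by rw [h]; exact lt_irrefl _)

end Fermat.Agent.GZ.Cut
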