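/-
GATE-Z / node (CUT), file 2: the multiplicative coordinate on `E₀ ∖ E₁` of a node model.

`W : y² + a₁xy = x³ + a₂x² + a₄x` a node model over a valuation subring `A ≤ K`
(`S13/NodeInertia.NodeHyp`), `α` a root of `T² + a₁T - a₂`, `β = -a₁ - α` the other root.  For a
point `P = (x, y)` with `x` a unit of `A` (i.e. `P ∈ E₀ ∖ E₁`) and `t = y / x`:
`uRes P := res ((t - α) / (t - β)) ∈ kˣ`.  We prove

* `uRes_add`: `uRes (P₁ + P₂) = uRes P₁ * uRes P₂` when `P₁, P₂, P₁ + P₂ ∈ E₀ ∖ E₁`;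
* `uRes_neg`, `uRes_ne_zero`, `uRes_ne_one`;
* `orderOf_uRes`: if `p` is a prime, a unit of `A`, `p • P = 0`, `P ≠ 0`, `P ∈ E₀`, then `uRes P`
  has order exactly `p` in the residue field.
-/
import Fermat.Agent.GZ.Cut.ResK
import Fermat.Agent.S13.NodeInertia

set_option autoImplicit false
set_option linter.unusedSectionVars false

namespace Fermat.Agent.GZ.Cut

open WeierstrassCurve WeierstrassCurve.Affine
open Fermat.Agent.S05 Fermat.Agent.S13.NodeInertia Fermat.Agent.S13.NodeGen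

/-! ### The algebraic identity -/

section Algebra

variable {K : Type*} [Field K]

/-- With `s = t₁ + t₂ + a₁`, `t₃` the slope coordinate of the sum (formula of
`NodeGen.add_formula`) and `γ` a root of `T² + a₁T - a₂`:
`(t₃ - γ) s = (t₁ - γ)(t₂ - γ) + a₄ (1/x₂ + 1/x₁ + s²/(x₁x₂ - a₄))`. -/
theorem t3_mul_s {t₁ t₂ x₁ x₂ a₁ a₂ a₄ γ : K} (hx₁ : x₁ ≠ 0) (hx₂ : x₂ ≠ 0)
    (hs : t₁ + t₂ + a₁ ≠ 0) (hu : x₁ * x₂ - a₄ ≠ 0)
    (E₂ : t₂ ^ 2 + a₁ * t₂ = x₂ + a₂ + a₄ / x₂) (hγ : γ ^ 2 + a₁ * γ - a₂ = 0) :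
    (-(t₁ + x₂ * ((1 - a₄ / (x₁ * x₂)) / (t₁ + t₂ + a₁)) + a₁) +
        1 / ((1 - a₄ / (x₁ * x₂)) / (t₁ + t₂ + a₁)) - γ) * (t₁ + t₂ + a₁) =
      (t₁ - γ) * (t₂ - γ) +
        a₄ * (1 / x₂ + 1 / x₁ + (t₁ + t₂ + a₁) ^ 2 / (x₁ * x₂ - a₄)) := by
  obtain ⟨s, hsd⟩ : ∃ s, s = t₁ + t₂ + a₁ := ⟨_, rfl⟩
  obtain ⟨d, hdd⟩ : ∃ d, d = x₁ * x₂ - a₄ := ⟨_, rfl⟩
  rw [← hsd] at hs ⊢
  rw [← hdd] at hu ⊢
  have hu₀ : 1 - a₄ / (x₁ * x₂) = d / (x₁ * x₂) := by
    rw [hdd]; field_simp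
  rw [hu₀]
  have h1 : (1 : K) / (d / (x₁ * x₂) / s) = s + s * (a₄ / d) := by
    field_simp
    rw [hdd]; ring
  have h2 : x₂ * (d / (x₁ * x₂) / s) = (x₂ - a₄ / x₁) / s := by
    field_simp
    rw [hdd]; ring
  rw [h1, h2]
  have h3 : (-(t₁ + (x₂ - a₄ / x₁) / s + a₁) + (s + s * (a₄ / d)) - γ) * s =
      -(t₁ + a₁ + γ) * s - (x₂ - a₄ / x₁) + s ^ 2 + a₄ * (s ^ 2 / d) := by
    field_simp
    ring
  rw [h3]
  linear_combination E₂ - hγ + (t₂ - γ + s) * hsd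

end Algebra

/-! ### Valuation form -/

section Val

variable {K : Type*} [Field K] {Γ₀ : Type*} [LinearOrderedCommGroupWithZero Γ₀]
  {v : Valuation K Γ₀} {W : WeierstrassCurve K} {α : K}

/-- the other root `β = -a₁ - α` -/
theorem other_root (M : GModel v W α) : (-W.a₁ - α) ^ 2 + W.a₁ * (-W.a₁ - α) - W.a₂ = 0 := by
  linear_combination M.hα

variable [DecidableEq K]

theorem v_slope_le_one (M : GModel v W α) {x y : K} (h : W.toAffine.Equation x y)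
    (hx : v x = 1) : v (y / x) ≤ 1 := by
  have h2 := v_t_sq_le M h hx.ge
  rw [hx] at h2
  by_contra hcon
  rw [not_le] at hcon
  exact not_le.mpr (one_lt_pow₀ hcon (by norm_num)) h2

theorem x_ne_zero_of_v {x : K} (hx : v x = 1) : x ≠ 0 := by
  rintro rfl
  rw [map_zero] at hx
  exact zero_ne_one hx

/-- for a point with unit `x`: `(t - α)(t + a₁ + α) = x + a₄/x` is a unit, so both factors are -/
theorem v_factors (M : GModel v W α) {x y : K} (h : W.toAffine.Equation x y) (hx : v x = 1) :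
    v (y / x - α) = 1 ∧ v (y / x + W.a₁ + α) = 1 := by
  have hx0 : x ≠ 0 := x_ne_zero_of_v hx
  have ht := v_slope_le_one M h hx
  have e := M.shape.t_sq h hx0
  have hprod : (y / x - α) * (y / x + W.a₁ + α) = x + W.a₄ / x := by
    rw [M.factor, e]; ring
  have hv : v (x + W.a₄ / x) = 1 := by
    rw [Valuation.map_add_eq_of_lt_left, hx]
    rw [map_div₀, hx, div_one]
    exact M.vb
  have h1 : v (y / x - α) ≤ 1 := Valuation.map_sub_le v ht M.vα
  have h2 : v (y / x + W.a₁ + α) ≤ 1 :=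
    Valuation.map_add_le v (Valuation.map_add_le v ht M.va₁) M.vα
  have hmul : v (y / x - α) * v (y / x + W.a₁ + α) = 1 := by
    rw [← map_mul, hprod, hv]
  constructor
  · apply le_antisymm h1
    by_contra hlt
    rw [not_le] at hlt
    have : v (y / x - α) * v (y / x + W.a₁ + α) < 1 :=
      calc v (y / x - α) * v (y / x + W.a₁ + α) ≤ v (y / x - α) * 1 := by gcongr
        _ = v (y / x - α) := mul_one _
        _ < 1 := hlt
    rw [hmul] at this
    exact lt_irrefl _ this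
  · apply le_antisymm h2
    by_contra hlt
    rw [not_le] at hlt
    have : v (y / x - α) * v (y / x + W.a₁ + α) < 1 :=
      calc v (y / x - α) * v (y / x + W.a₁ + α) ≤ 1 * v (y / x + W.a₁ + α) := by gcongr
        _ = v (y / x + W.a₁ + α) := one_mul _
        _ < 1 := hlt
    rw [hmul] at this
    exact lt_irrefl _ this

/-- **Multiplicativity, valuation form.**  If `P₁, P₂` and `P₃ = P₁ + P₂` all have unit
`x`-coordinate, then `s = t₁ + t₂ + a₁` is a unit and, for both roots `γ ∈ {α, β}`,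
`(t₃ - γ) s ≡ (t₁ - γ)(t₂ - γ)` modulo the maximal ideal. -/
theorem umul_core (M : GModel v W α) {x₁ y₁ x₂ y₂ x₃ y₃ : K}
    (h₁ : W.toAffine.Nonsingular x₁ y₁) (h₂ : W.toAffine.Nonsingular x₂ y₂)
    (h₃ : W.toAffine.Nonsingular x₃ y₃) (e₁ : v x₁ = 1) (e₂ : v x₂ = 1) (e₃ : v x₃ = 1)
    (hadd : Point.some x₁ y₁ h₁ + Point.some x₂ y₂ h₂ = Point.some x₃ y₃ h₃) :
    v (y₁ / x₁ + y₂ / x₂ + W.a₁) = 1 ∧
    v ((y₃ / x₃ - α) * (y₁ / x₁ + y₂ / x₂ + W.a₁) - (y₁ / x₁ - α) * (y₂ / x₂ - α)) < 1 ∧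
    v ((y₃ / x₃ + W.a₁ + α) * (y₁ / x₁ + y₂ / x₂ + W.a₁) -
      (y₁ / x₁ + W.a₁ + α) * (y₂ / x₂ + W.a₁ + α)) < 1 := by
  have hx₁ : x₁ ≠ 0 := x_ne_zero_of_v e₁
  have hx₂ : x₂ ≠ 0 := x_ne_zero_of_v e₂
  set s := y₁ / x₁ + y₂ / x₂ + W.a₁ with hsd
  set u := 1 - W.a₄ / (x₁ * x₂) with hud
  have hvq : v (W.a₄ / (x₁ * x₂)) = v W.a₄ := by
    rw [map_div₀, map_mul, e₁, e₂, mul_one, div_one]
  have hq : v (W.a₄ / (x₁ * x₂)) < 1 := by rw [hvq]; exact M.vb
  have hvu : v u = 1 := Valuation.map_one_sub_of_lt v hq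
  have hu0 : u ≠ 0 := by
    intro h; rw [h, map_zero] at hvu; exact zero_ne_one hvu
  have hs0 : s ≠ 0 := by
    intro hs0
    have hprod := M.shape.t_diff_mul h₁.1 h₂.1 hx₁ hx₂
    rw [← hsd, hs0, mul_zero, ← hud] at hprod
    have hxx : x₁ = x₂ := by
      rcases mul_eq_zero.mp hprod.symm with h | h
      · exact sub_eq_zero.mp h
      · exact absurd h hu0
    have h0 : Point.some x₁ y₁ h₁ + Point.some x₂ y₂ h₂ = 0 := by
      apply Point.add_of_Y_eq hxx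
      rw [M.shape.negY]
      subst hxx
      have : y₁ / x₁ + y₂ / x₁ + W.a₁ = 0 := hs0
      field_simp at this
      linear_combination this
    rw [hadd] at h0
    exact absurd h0 (by simp [Point.zero_def])
  obtain ⟨x₃', y₃', h₃', hadd', hx₃', hy₃'⟩ := M.shape.add_formula h₁ h₂ hx₁ hx₂ hs0
  rw [← hud, ← hsd] at hx₃' hy₃'
  rw [hadd] at hadd'
  obtain ⟨rfl, rfl⟩ : x₃ = x₃' ∧ y₃ = y₃' := by
    have := hadd'
    simp only [Point.some.injEq] at this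
    exact this
  have ps : 0 < v s := zero_lt_iff.mpr ((Valuation.ne_zero_iff v).mpr hs0)
  have hvs : v s = 1 := by
    have hvx₃ : v x₃ = 1 / v s ^ 2 := by
      rw [hx₃', map_mul, map_mul, map_pow, map_div₀, hvu, div_pow, e₁, e₂]
      simp
    rw [e₃] at hvx₃
    have h2 : v s ^ 2 = 1 := by
      have := hvx₃.symm
      rw [div_eq_iff (pow_pos ps 2).ne', one_mul] at this
      exact this.symm
    have : v s ^ 2 = 1 ^ 2 := by rw [h2, one_pow]
    exact (pow_left_inj₀ zero_le zero_le two_ne_zero).1 this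
  have hκ0 : u / s ≠ 0 := div_ne_zero hu0 hs0
  have ht₃ := t3_eq hx₁ hx₂ hκ0 hx₃' hy₃'
  have hd0 : x₁ * x₂ - W.a₄ ≠ 0 := by
    intro h
    apply hu0
    rw [hud]
    field_simp
    linear_combination h
  have E₂ := M.shape.t_sq h₂.1 hx₂
  -- the error term is small
  have hρ : v (W.a₄ * (1 / x₂ + 1 / x₁ + s ^ 2 / (x₁ * x₂ - W.a₄))) < 1 := by
    rw [map_mul]
    have hd : v (x₁ * x₂ - W.a₄) = 1 := by
      rw [Valuation.map_sub_eq_of_lt_left, map_mul, e₁, e₂, mul_one]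
      rw [map_mul, e₁, e₂, mul_one]
      exact M.vb
    have h1 : v (1 / x₂ + 1 / x₁ + s ^ 2 / (x₁ * x₂ - W.a₄)) ≤ 1 := by
      refine Valuation.map_add_le v (Valuation.map_add_le v ?_ ?_) ?_
      · rw [map_div₀, map_one, e₂, div_one]
      · rw [map_div₀, map_one, e₁, div_one]
      · rw [map_div₀, map_pow, hvs, hd, one_pow, div_one]
    calc v W.a₄ * v (1 / x₂ + 1 / x₁ + s ^ 2 / (x₁ * x₂ - W.a₄)) ≤ v W.a₄ * 1 := by gcongr
      _ = v W.a₄ := mul_one _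
      _ < 1 := M.vb
  refine ⟨hvs, ?_, ?_⟩
  · have key := t3_mul_s (γ := α) hx₁ hx₂ hs0 hd0 E₂ M.hα
    rw [← hud, ← hsd] at key
    rw [ht₃, key, add_sub_cancel_left]
    exact hρ
  · have key := t3_mul_s (γ := -W.a₁ - α) hx₁ hx₂ hs0 hd0 E₂ (other_root M)
    rw [← hud, ← hsd] at key
    have e3 : y₃ / x₃ + W.a₁ + α = y₃ / x₃ - (-W.a₁ - α) := by ring
    have e1 : y₁ / x₁ + W.a₁ + α = y₁ / x₁ - (-W.a₁ - α) := by ring
    have e2 : y₂ / x₂ + W.a₁ + α = y₂ / x₂ - (-W.a₁ - α) := by ring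
    rw [e3, e1, e2, ht₃, key, add_sub_cancel_left]
    exact hρ

end Val

/-! ### Residue field form -/

section Res

variable {K : Type*} [Field K] [DecidableEq K] {A : ValuationSubring K} {W : WeierstrassCurve K}
  {α : K}

/-- the unit coordinate `(t - α) / (t - β)`, `t = y / x`, as an element of `K` -/
def uK (W : WeierstrassCurve K) (α : K) : W.toAffine.Point → K
  | .zero => 1
  | .some x y _ => (y / x - α) / (y / x + W.a₁ + α)

/-- the unit coordinate in the residue field -/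
noncomputable def uRes (A : ValuationSubring K) (W : WeierstrassCurve K) (α : K)
    (P : W.toAffine.Point) : IsLocalRing.ResidueField A :=
  resK A (uK W α P)

/-- `P ∈ E₀ ∖ E₁`: an affine point whose `x`-coordinate is a unit of `A` -/
def InU (A : ValuationSubring K) (W : WeierstrassCurve K) (P : W.toAffine.Point) : Prop :=
  ∃ (x y : K) (h : W.toAffine.Nonsingular x y), P = Point.some x y h ∧ A.valuation x = 1

theorem uRes_zero : uRes A W α 0 = 1 := resK_one A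

theorem slope_sub_mem (M : GModel A.valuation W α) {x y : K} (h : W.toAffine.Nonsingular x y)
    (hx : A.valuation x = 1) :
    (y / x - α ∈ A ∧ y / x - α ∉ A.nonunits) ∧
      (y / x + W.a₁ + α ∈ A ∧ y / x + W.a₁ + α ∉ A.nonunits) := by
  obtain ⟨h1, h2⟩ := v_factors M h.1 hx
  exact ⟨⟨mem_of_val_le h1.le, notMem_nu_of_val_eq h1⟩, ⟨mem_of_val_le h2.le, notMem_nu_of_val_eq h2⟩⟩

theorem uRes_some (M : GModel A.valuation W α) {x y : K} (h : W.toAffine.Nonsingular x y)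
    (hx : A.valuation x = 1) :
    uRes A W α (Point.some x y h) = resK A (y / x - α) / resK A (y / x + W.a₁ + α) ∧
      resK A (y / x - α) ≠ 0 ∧ resK A (y / x + W.a₁ + α) ≠ 0 := by
  obtain ⟨⟨m1, u1⟩, ⟨m2, u2⟩⟩ := slope_sub_mem M h hx
  refine ⟨?_, resK_ne_zero m1 u1, resK_ne_zero m2 u2⟩
  change resK A ((y / x - α) / (y / x + W.a₁ + α)) = _
  exact resK_div m1 m2 u2

theorem uRes_ne_zero (M : GModel A.valuation W α) {P : W.toAffine.Point} (hP : InU A W P) :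
    uRes A W α P ≠ 0 := by
  obtain ⟨x, y, h, rfl, hx⟩ := hP
  obtain ⟨e, n1, n2⟩ := uRes_some M h hx
  rw [e]
  exact div_ne_zero n1 n2

theorem uRes_ne_one (M : GModel A.valuation W α) {P : W.toAffine.Point} (hP : InU A W P) :
    uRes A W α P ≠ 1 := by
  obtain ⟨x, y, h, rfl, hx⟩ := hP
  obtain ⟨e, n1, n2⟩ := uRes_some M h hx
  obtain ⟨⟨m1, u1⟩, ⟨m2, u2⟩⟩ := slope_sub_mem M h hx
  rw [e]
  intro h1
  rw [div_eq_one_iff_eq n2] at h1
  have h0 : resK A ((y / x + W.a₁ + α) - (y / x - α)) = 0 := by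
    rw [resK_sub m2 m1, h1, sub_self]
  have hmem : (y / x + W.a₁ + α) - (y / x - α) ∈ A.nonunits :=
    (resK_eq_zero_iff (sub_mem m2 m1)).1 h0
  have e2 : (y / x + W.a₁ + α) - (y / x - α) = 2 * α + W.a₁ := by ring
  rw [e2] at hmem
  exact notMem_nu_of_val_eq M.vδ hmem

/-- **`uRes` is multiplicative on `E₀ ∖ E₁`.** -/
theorem uRes_add (M : GModel A.valuation W α) {P₁ P₂ : W.toAffine.Point} (h₁ : InU A W P₁)
    (h₂ : InU A W P₂) (h₃ : InU A W (P₁ + P₂)) :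
    uRes A W α (P₁ + P₂) = uRes A W α P₁ * uRes A W α P₂ := by
  obtain ⟨x₁, y₁, n₁, rfl, e₁⟩ := h₁
  obtain ⟨x₂, y₂, n₂, rfl, e₂⟩ := h₂
  obtain ⟨x₃, y₃, n₃, hadd, e₃⟩ := h₃
  obtain ⟨hvs, hA, hB⟩ := umul_core M n₁ n₂ n₃ e₁ e₂ e₃ hadd
  rw [hadd]
  obtain ⟨r₁, a₁0, b₁0⟩ := uRes_some M n₁ e₁
  obtain ⟨r₂, a₂0, b₂0⟩ := uRes_some M n₂ e₂
  obtain ⟨r₃, a₃0, b₃0⟩ := uRes_some M n₃ e₃
  obtain ⟨⟨ma₁, -⟩, ⟨mb₁, -⟩⟩ := slope_sub_mem M n₁ e₁
  obtain ⟨⟨ma₂, -⟩, ⟨mb₂, -⟩⟩ := slope_sub_mem M n₂ e₂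
  obtain ⟨⟨ma₃, -⟩, ⟨mb₃, -⟩⟩ := slope_sub_mem M n₃ e₃
  have ms : y₁ / x₁ + y₂ / x₂ + W.a₁ ∈ A := mem_of_val_le hvs.le
  have hS : resK A (y₁ / x₁ + y₂ / x₂ + W.a₁) ≠ 0 := resK_ne_zero ms (notMem_nu_of_val_eq hvs)
  have kA : resK A (y₃ / x₃ - α) * resK A (y₁ / x₁ + y₂ / x₂ + W.a₁) =
      resK A (y₁ / x₁ - α) * resK A (y₂ / x₂ - α) := by
    rw [← resK_mul ma₃ ms, ← resK_mul ma₁ ma₂]
    exact resK_eq_of_sub_mem (mul_mem ma₃ ms) (mul_mem ma₁ ma₂) (mem_nu_of_val_lt hA)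
  have kB : resK A (y₃ / x₃ + W.a₁ + α) * resK A (y₁ / x₁ + y₂ / x₂ + W.a₁) =
      resK A (y₁ / x₁ + W.a₁ + α) * resK A (y₂ / x₂ + W.a₁ + α) := by
    rw [← resK_mul mb₃ ms, ← resK_mul mb₁ mb₂]
    exact resK_eq_of_sub_mem (mul_mem mb₃ ms) (mul_mem mb₁ mb₂) (mem_nu_of_val_lt hB)
  rw [r₁, r₂, r₃, div_mul_div_comm, ← kA, ← kB, mul_div_mul_right _ _ hS]

/-- `-P ∈ E₀ ∖ E₁` and `uRes (-P) = (uRes P)⁻¹`. -/
theorem uRes_neg (M : GModel A.valuation W α) {P : W.toAffine.Point} (hP : InU A W P) :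
    InU A W (-P) ∧ uRes A W α (-P) = (uRes A W α P)⁻¹ := by
  obtain ⟨x, y, h, rfl, hx⟩ := hP
  have hx0 : x ≠ 0 := x_ne_zero_of_v hx
  have hneg : -(Point.some x y h) = Point.some x (W.toAffine.negY x y) ((nonsingular_neg ..).2 h) :=
    Point.neg_some h
  have hU : InU A W (-(Point.some x y h)) := ⟨x, _, _, hneg, hx⟩
  refine ⟨hU, ?_⟩
  obtain ⟨e, n1, n2⟩ := uRes_some M h hx
  obtain ⟨⟨m1, u1⟩, ⟨m2, u2⟩⟩ := slope_sub_mem M h hx
  obtain ⟨e', -, -⟩ := uRes_some M ((nonsingular_neg ..).2 h) hx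
  rw [hneg, e', e, inv_div, M.shape.negY]
  have t1 : (-y - W.a₁ * x) / x - α = -(y / x + W.a₁ + α) := by field_simp; ring
  have t2 : (-y - W.a₁ * x) / x + W.a₁ + α = -(y / x - α) := by field_simp; ring
  rw [t1, t2, resK_neg m2, resK_neg m1, neg_div_neg_eq]

theorem uRes_nsmul (M : GModel A.valuation W α) (P : W.toAffine.Point) (n : ℕ)
    (hU : ∀ k, 1 ≤ k → k ≤ n → InU A W (k • P)) :
    ∀ k, 1 ≤ k → k ≤ n → uRes A W α (k • P) = uRes A W α P ^ k := by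
  intro k
  induction k with
  | zero => intro h; omega
  | succ k ih =>
    intro _ hk
    rcases Nat.eq_zero_or_pos k with rfl | hk0
    · simp
    · have h1 := ih hk0 (by omega)
      have hUk := hU k hk0 (by omega)
      have hU1 : InU A W P := by simpa using hU 1 le_rfl (by omega)
      have hUk1 := hU (k + 1) (by omega) hk
      rw [succ_nsmul] at hUk1 ⊢
      rw [uRes_add M hUk hU1 hUk1, h1, pow_succ]

/-- If `n • P = 0` and `k • P ∈ E₀ ∖ E₁` for `0 < k < n`, then `uRes P ^ n = 1`. -/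
theorem uRes_pow_eq_one (M : GModel A.valuation W α) (P : W.toAffine.Point) {n : ℕ} (hn : 2 ≤ n)
    (hnP : n • P = 0) (hU : ∀ k, 1 ≤ k → k < n → InU A W (k • P)) :
    uRes A W α P ^ n = 1 := by
  have hU1 : InU A W P := by simpa using hU 1 le_rfl (by omega)
  have h1 := uRes_nsmul M P (n - 1) (fun k hk hk' => hU k hk (by omega)) (n - 1) (by omega) le_rfl
  have hneg : (n - 1) • P = -P := by
    have : (n - 1) • P + P = 0 := by
      rw [← succ_nsmul, Nat.sub_add_cancel (by omega), hnP]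
    exact eq_neg_of_add_eq_zero_left this
  rw [hneg, (uRes_neg M hU1).2] at h1
  have h0 := uRes_ne_zero M hU1
  have : uRes A W α P ^ n = uRes A W α P ^ (n - 1) * uRes A W α P := by
    rw [← pow_succ, Nat.sub_add_cancel (by omega)]
  rw [this, ← h1, inv_mul_cancel₀ h0]

end Res

/-! ### The order of `uRes` of a torsion point -/

section Order

variable {K : Type*} [Field K] [DecidableEq K] {A : ValuationSubring K} {W : WeierstrassCurve K}
  {α : K}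

/-- a nonzero point of `E₀` which is not in `E₁` lies in `U` -/
theorem inU_of_inE0 {P : W.toAffine.Point} (h0 : InE0 A.valuation W P) (hP : P ≠ 0)
    (h1 : ¬ InKerRed A P) : InU A W P := by
  rcases h0 with rfl | ⟨x, y, h, rfl, hx⟩
  · exact absurd rfl hP
  · refine ⟨x, y, h, rfl, le_antisymm ?_ hx⟩
    by_contra hlt
    apply h1
    change x ∉ A
    intro hxA
    exact hlt ((ValuationSubring.valuation_le_one_iff A _).2 hxA)

/-- **The order of `uRes P`.**  `p` a prime which is a unit of `A`, `P ∈ E₀` of order `p`: then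
`uRes P` has order `p` in the residue field. -/
theorem orderOf_uRes (H : NodeHyp A W) (hα : α ^ 2 + W.a₁ * α - W.a₂ = 0) {p : ℕ} (hp : p.Prime)
    (hpA : (p : K) ∉ A.nonunits) (P : W.toAffine.Point) (hpP : p • P = 0) (hP : P ≠ 0)
    (h0 : InE0 A.valuation W P) :
    InU A W P ∧ orderOf (uRes A W α P) = p := by
  have M := H.gModel hα
  have : Fact p.Prime := ⟨hp⟩
  have hord : addOrderOf P = p := addOrderOf_eq_prime hpP hP
  have hU : ∀ k, 1 ≤ k → k < p → InU A W (k • P) := by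
    intro k hk hkp
    have hk0 : k • P ≠ 0 := by
      intro h
      have := addOrderOf_dvd_of_nsmul_eq_zero h
      rw [hord] at this
      exact absurd (Nat.le_of_dvd (by omega) this) (by omega)
    refine inU_of_inE0 (inE0_nsmul M h0 k) hk0 ?_
    intro hker
    apply hk0
    have hpk : p • (k • P) = 0 := by rw [smul_comm, hpP, smul_zero]
    exact KR.eq_zero_of_nsmul_eq_zero_of_x_notMem (W := W.toAffine) H.integralB hpA _ hpk
      ((inKerRed_iff _).1 hker)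
  have hU1 : InU A W P := by simpa using hU 1 le_rfl hp.one_lt
  refine ⟨hU1, ?_⟩
  exact orderOf_eq_prime (uRes_pow_eq_one M P hp.two_le hpP hU) (uRes_ne_one M hU1)

end Order

end Fermat.Agent.GZ.Cut
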