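/-
GATE-Z / node (CUT), file 3: the Frobenius `z ↦ z ^ ℓ` of the residue field and the unit
coordinate `uRes`.

`A ≤ K` a valuation subring with `(ℓ : K) ∈ 𝔪`, `ℓ` prime.  `FixK A ℓ z` : `z ∈ A` and the residue
of `z` is fixed by the Frobenius (i.e. lies in `𝔽_ℓ`).  If the coefficients of `W₀` are `FixK`
and `(r, t)` is an `A`-integral translation to a node model, then `r, t` are `FixK`
(`r̄ c̄₄ = 18 b̄₆ - b̄₂ b̄₄`, `b̄₂' t̄ = …`).  For a point `P = (x, y)` of the node model with `FixK`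
coordinates and `x` a unit: `uRes P ^ ℓ = uRes P` or `uRes P ^ ℓ = (uRes P)⁻¹`
(the Frobenius permutes the two tangent directions at the node).
-/
import Fermat.Agent.GZ.Cut.UMap
import Fermat.Agent.GE.Unip.NodeChange

set_option autoImplicit false
set_option linter.unusedSectionVars false

namespace Fermat.Agent.GZ.Cut

open IsLocalRing WeierstrassCurve WeierstrassCurve.Affine
open Fermat.Agent.S05 Fermat.Agent.S13.NodeInertia Fermat.Agent.S13.NodeGen Fermat.Agent.GE.Unip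

section Fix

variable {K : Type*} [Field K] {A : ValuationSubring K} {l : ℕ}

theorem charP_res (hl : l.Prime) (hA : (l : K) ∈ A.nonunits) : CharP (ResidueField A) l := by
  rw [CharP.charP_iff_prime_eq_zero hl, ← resK_natCast (A := A), resK_eq_zero_iff (natCast_mem' l)]
  exact hA

/-- `z ∈ A` and the residue of `z` is fixed by the `ℓ`-power Frobenius -/
def FixK (A : ValuationSubring K) (l : ℕ) (z : K) : Prop :=
  z ∈ A ∧ resK A z ^ l = resK A z

variable [Fact l.Prime] [CharP (ResidueField A) l]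

theorem FixK.add {x y : K} (hx : FixK A l x) (hy : FixK A l y) : FixK A l (x + y) :=
  ⟨add_mem hx.1 hy.1, by rw [resK_add hx.1 hy.1, add_pow_char, hx.2, hy.2]⟩

theorem FixK.mul {x y : K} (hx : FixK A l x) (hy : FixK A l y) : FixK A l (x * y) :=
  ⟨mul_mem hx.1 hy.1, by rw [resK_mul hx.1 hy.1, mul_pow, hx.2, hy.2]⟩

theorem FixK.neg {x : K} (hx : FixK A l x) : FixK A l (-x) := by
  refine ⟨neg_mem hx.1, ?_⟩
  rw [resK_neg hx.1]
  have := map_neg (frobenius (ResidueField A) l) (resK A x)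
  rw [frobenius_def, frobenius_def, hx.2] at this
  exact this

theorem FixK.sub {x y : K} (hx : FixK A l x) (hy : FixK A l y) : FixK A l (x - y) := by
  rw [sub_eq_add_neg]
  exact hx.add hy.neg

theorem FixK.pow {x : K} (hx : FixK A l x) (n : ℕ) : FixK A l (x ^ n) :=
  ⟨pow_mem hx.1 n, by rw [resK_pow hx.1, ← pow_mul, mul_comm, pow_mul, hx.2]⟩

theorem FixK.intCast (n : ℤ) : FixK A l (n : K) := by
  refine ⟨intCast_mem' n, ?_⟩
  rw [resK_intCast]
  have := map_intCast (frobenius (ResidueField A) l) n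
  rw [frobenius_def] at this
  exact this

theorem FixK.natCast (n : ℕ) : FixK A l (n : K) := by
  have := FixK.intCast (A := A) (l := l) (n : ℤ)
  simpa using this

theorem FixK.ofNat (n : ℕ) [n.AtLeastTwo] : FixK A l (OfNat.ofNat n : K) := by
  have := FixK.natCast (A := A) (l := l) n
  rw [← Nat.cast_ofNat (R := K)]
  exact this

theorem FixK.inv {y : K} (hy : FixK A l y) (hyu : y ∉ A.nonunits) : FixK A l y⁻¹ :=
  ⟨inv_mem_of_unit hy.1 hyu, by rw [resK_inv hy.1 hyu, inv_pow, hy.2]⟩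

theorem FixK.div {x y : K} (hx : FixK A l x) (hy : FixK A l y) (hyu : y ∉ A.nonunits) :
    FixK A l (x / y) := by
  rw [div_eq_mul_inv]
  exact hx.mul (hy.inv hyu)

/-- if `u z ≡ w` with `u` a unit, `u` and `w` Frobenius-fixed, then `z` is Frobenius-fixed -/
theorem FixK.of_mul_eq {u w z : K} (hu : FixK A l u) (huu : u ∉ A.nonunits) (hw : FixK A l w)
    (hz : z ∈ A) (h : u * z - w ∈ A.nonunits) : FixK A l z := by
  refine ⟨hz, ?_⟩
  have e : resK A u * resK A z = resK A w := by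
    rw [← resK_mul hu.1 hz]
    exact resK_eq_of_sub_mem (mul_mem hu.1 hz) hw.1 h
  have hu0 : resK A u ≠ 0 := resK_ne_zero hu.1 huu
  have e' : resK A z = resK A w / resK A u := by
    rw [eq_div_iff hu0, mul_comm]
    exact e
  rw [e', div_pow, hw.2, hu.2]

end Fix

/-! ### The translation to the node model is Frobenius-fixed -/

section Transl

variable {K : Type*} [Field K] [DecidableEq K] {A : ValuationSubring K} {l : ℕ}
  [Fact l.Prime] [CharP (ResidueField A) l]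

/-- the coefficients of `W₀` have Frobenius-fixed residues -/
structure FixCoeffs (A : ValuationSubring K) (l : ℕ) (W₀ : WeierstrassCurve K) : Prop where
  a₁ : FixK A l W₀.a₁
  a₂ : FixK A l W₀.a₂
  a₃ : FixK A l W₀.a₃
  a₄ : FixK A l W₀.a₄
  a₆ : FixK A l W₀.a₆

variable {W₀ : WeierstrassCurve K}

theorem FixCoeffs.b₂ (F : FixCoeffs A l W₀) : FixK A l W₀.b₂ := by
  rw [WeierstrassCurve.b₂]
  exact (F.a₁.pow 2).add ((FixK.ofNat 4).mul F.a₂)

theorem FixCoeffs.b₄ (F : FixCoeffs A l W₀) : FixK A l W₀.b₄ := by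
  rw [WeierstrassCurve.b₄]
  exact ((FixK.ofNat 2).mul F.a₄).add (F.a₁.mul F.a₃)

theorem FixCoeffs.b₆ (F : FixCoeffs A l W₀) : FixK A l W₀.b₆ := by
  rw [WeierstrassCurve.b₆]
  exact (F.a₃.pow 2).add ((FixK.ofNat 4).mul F.a₆)

theorem FixCoeffs.c₄ (F : FixCoeffs A l W₀) : FixK A l W₀.c₄ := by
  rw [WeierstrassCurve.c₄]
  exact (F.b₂.pow 2).sub ((FixK.ofNat 24).mul F.b₄)

/-- **The translation `(r, t)` to a node model has Frobenius-fixed residues.** -/
theorem fixK_translation (F : FixCoeffs A l W₀) {r t : K} (hr : r ∈ A) (ht : t ∈ A)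
    (H : NodeHyp A (transl r t • W₀)) : FixK A l r ∧ FixK A l t := by
  have h3 := H.a₃
  rw [transl_a₃] at h3
  have h6 := H.a₆
  rw [transl_a₆] at h6
  have h4 := H.a₄
  rw [transl_a₄] at h4
  have hb₂ := H.b₂
  rw [transl_b₂] at hb₂
  have hb₂A : W₀.b₂ + 12 * r ∈ A := add_mem F.b₂.1 (mul_mem (FixK.ofNat (A := A) (l := l) 12).1 hr)
  -- `c₄` is a unit
  have hc₄u : W₀.c₄ ∉ A.nonunits := by
    rw [← transl_c₄ W₀ r t, c₄_of_shape H.a₃, transl_b₂, transl_a₄]
    intro hmem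
    apply hb₂
    apply KerTors.mem_nu_of_sq_mem_nu A
    have e : (W₀.b₂ + 12 * r) ^ 2 = ((W₀.b₂ + 12 * r) ^ 2 -
        48 * (W₀.a₄ + 2 * r * W₀.a₂ - t * W₀.a₁ + 3 * r ^ 2)) +
        48 * (W₀.a₄ + 2 * r * W₀.a₂ - t * W₀.a₁ + 3 * r ^ 2) := by ring
    rw [e]
    exact SameRed.nu_add A hmem (SameRed.nu_mul_right A (FixK.ofNat (A := A) (l := l) 48).1 h4)
  have fr : FixK A l r := by
    refine FixK.of_mul_eq (u := W₀.c₄) (w := 18 * W₀.b₆ - W₀.b₂ * W₀.b₄) F.c₄ hc₄u
      (((FixK.ofNat 18).mul F.b₆).sub (F.b₂.mul F.b₄)) hr ?_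
    have key : W₀.c₄ * r - (18 * W₀.b₆ - W₀.b₂ * W₀.b₄) =
        2 * (W₀.b₂ + 12 * r) * (W₀.a₄ + 2 * r * W₀.a₂ - t * W₀.a₁ + 3 * r ^ 2) := by
      simp only [WeierstrassCurve.c₄, WeierstrassCurve.b₂, WeierstrassCurve.b₄,
        WeierstrassCurve.b₆]
      linear_combination ((W₀.a₁ ^ 2 + 4 * W₀.a₂ + 12 * r) * W₀.a₁ -
        18 * (W₀.a₃ + r * W₀.a₁ + 2 * t)) * h3 - 72 * h6
    rw [key]
    exact SameRed.nu_mul_right A (mul_mem (FixK.ofNat (A := A) (l := l) 2).1 hb₂A) h4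
  refine ⟨fr, ?_⟩
  refine FixK.of_mul_eq (u := W₀.b₂ + 12 * r)
    (w := W₀.a₁ * (W₀.a₄ + 2 * r * W₀.a₂ + 3 * r ^ 2) -
      (2 * W₀.a₂ + 6 * r) * (W₀.a₃ + r * W₀.a₁))
    (F.b₂.add ((FixK.ofNat 12).mul fr)) hb₂ ?_ ht ?_
  · refine (F.a₁.mul ((F.a₄.add (((FixK.ofNat 2).mul fr).mul F.a₂)).add
      ((FixK.ofNat 3).mul (fr.pow 2)))).sub ?_
    exact (((FixK.ofNat 2).mul F.a₂).add ((FixK.ofNat 6).mul fr)).mul (F.a₃.add (fr.mul F.a₁))
  · have key : (W₀.b₂ + 12 * r) * t - (W₀.a₁ * (W₀.a₄ + 2 * r * W₀.a₂ + 3 * r ^ 2) -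
        (2 * W₀.a₂ + 6 * r) * (W₀.a₃ + r * W₀.a₁)) =
        -(W₀.a₁ * (W₀.a₄ + 2 * r * W₀.a₂ - t * W₀.a₁ + 3 * r ^ 2)) := by
      simp only [WeierstrassCurve.b₂]
      linear_combination (2 * W₀.a₂ + 6 * r) * h3
    rw [key]
    exact SameRed.nu_neg A (SameRed.nu_mul_right A F.a₁.1 h4)

end Transl

/-! ### Frobenius and the unit coordinate -/

section FrobU

variable {K : Type*} [Field K] [DecidableEq K] {A : ValuationSubring K} {l : ℕ}
  [Fact l.Prime] [CharP (ResidueField A) l] {W : WeierstrassCurve K} {α : K}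

/-- **The Frobenius fixes or inverts `uRes` of a point with Frobenius-fixed coordinates.** -/
theorem uRes_frob (M : GModel A.valuation W α) (f₁ : FixK A l W.a₁) (f₂ : FixK A l W.a₂)
    {x y : K} (h : W.toAffine.Nonsingular x y) (hx : A.valuation x = 1)
    (fx : FixK A l x) (fy : FixK A l y) :
    uRes A W α (Point.some x y h) ^ l = uRes A W α (Point.some x y h) ∨
      uRes A W α (Point.some x y h) ^ l = (uRes A W α (Point.some x y h))⁻¹ := by
  have hl0 : l ≠ 0 := (Fact.out : l.Prime).ne_zero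
  have hαA : α ∈ A := mem_of_val_le M.vα
  have ft : FixK A l (y / x) := fy.div fx (notMem_nu_of_val_eq hx)
  obtain ⟨e, n1, n2⟩ := uRes_some M h hx
  have r1 : resK A (y / x - α) = resK A (y / x) - resK A α := resK_sub ft.1 hαA
  have r2 : resK A (y / x + W.a₁ + α) = resK A (y / x) + resK A W.a₁ + resK A α := by
    rw [resK_add (add_mem ft.1 f₁.1) hαA, resK_add ft.1 f₁.1]
  have hroot : resK A α ^ 2 + resK A W.a₁ * resK A α - resK A W.a₂ = 0 := by
    have := congrArg (resK A) M.hα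
    rw [resK_zero, resK_sub (add_mem (pow_mem hαA 2) (mul_mem f₁.1 hαA)) f₂.1,
      resK_add (pow_mem hαA 2) (mul_mem f₁.1 hαA), resK_pow hαA, resK_mul f₁.1 hαA] at this
    exact this
  have hroot' : (resK A α ^ l) ^ 2 + resK A W.a₁ * resK A α ^ l - resK A W.a₂ = 0 := by
    have := congrArg (fun z => z ^ l) hroot
    beta_reduce at this
    rw [sub_pow_char, add_pow_char, mul_pow, f₁.2, f₂.2, zero_pow hl0, ← pow_mul, mul_comm 2 l,
      pow_mul] at this
    exact this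
  have hcase : resK A α ^ l = resK A α ∨ resK A α ^ l = -resK A W.a₁ - resK A α := by
    have : (resK A α ^ l - resK A α) * (resK A α ^ l + resK A W.a₁ + resK A α) = 0 := by
      linear_combination hroot' - hroot
    rcases mul_eq_zero.1 this with h1 | h1
    · left; exact sub_eq_zero.1 h1
    · right; linear_combination h1
  rw [e, r1, r2, div_pow, sub_pow_char, add_pow_char, add_pow_char, ft.2, f₁.2]
  rcases hcase with hc | hc
  · left; rw [hc]
  · right
    rw [hc, inv_div]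
    congr 1 <;> ring

/-- the arithmetic consequence -/
theorem dvd_of_orderOf {k : Type*} [Field k] {u : k} {p l : ℕ} (hu : orderOf u = p) (hu0 : u ≠ 0)
    (hl : 1 ≤ l) (h : u ^ l = u ∨ u ^ l = u⁻¹) : p ∣ l - 1 ∨ p ∣ l + 1 := by
  rcases h with h | h
  · left
    rw [← hu]
    apply orderOf_dvd_of_pow_eq_one
    have : u ^ (l - 1) * u = u := by
      rw [← pow_succ, Nat.sub_add_cancel hl, h]
    exact mul_right_cancel₀ hu0 (by rw [this, one_mul])
  · right
    rw [← hu]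
    apply orderOf_dvd_of_pow_eq_one
    rw [pow_succ, h, inv_mul_cancel₀ hu0]

end FrobU

end Fermat.Agent.GZ.Cut
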