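/-
GATE-Z / node (CUT), file 4: bridges.

* `x_unit_of_nonsingularRed`: on a node model, an integral point with nonsingular reduction has
  unit `x`-coordinate (the node `(0, 0)` is the singular point of the reduction);
* `nonsingularRed_of_residue`: the frozen `Nonsingular` condition over the residue field of `A`
  (as in `WeierstrassCurve.InZeroComponentAt`) implies `S05.NonsingularRed`;
* `fixK_ratCast`: a rational number lying in `A` has Frobenius-fixed residue.
-/
import Fermat.Agent.GZ.Cut.Frob
import Fermat.Agent.GE.Unip.Main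

set_option autoImplicit false
set_option linter.unusedSectionVars false

namespace Fermat.Agent.GZ.Cut

open IsLocalRing WeierstrassCurve WeierstrassCurve.Affine
open Fermat.Agent.S05 Fermat.Agent.S05.SameRed Fermat.Agent.S13.NodeInertia
open Fermat.Agent.S13.NodeGen Fermat.Agent.GE.Unip

section Node

variable {K : Type*} [Field K] [DecidableEq K] {A : ValuationSubring K} {W : WeierstrassCurve K}

/-- On a node model, an integral point with nonsingular reduction has unit `x`-coordinate. -/
theorem x_unit_of_nonsingularRed (H : NodeHyp A W) {x y : K} (h : W.toAffine.Equation x y)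
    (hx : x ∈ A) (hy : y ∈ A) (hns : NonsingularRed A W x y) : x ∉ A.nonunits := by
  intro hxm
  have E := (Affine.equation_iff (W := W.toAffine) x y).1 h
  rw [H.a₃, H.a₆] at E
  have h2 : (2 : K) ∈ A := ofNat_mem A 2
  have h3 : (3 : K) ∈ A := ofNat_mem A 3
  have hy2 : y ^ 2 ∈ A.nonunits := by
    have e : y ^ 2 = x * (x ^ 2 + W.a₂ * x + W.a₄ - W.a₁ * y) := by linear_combination E
    rw [e]
    exact nu_mul_left A hxm (sub_mem (add_mem (add_mem (pow_mem hx 2) (mul_mem H.a₂ hx)) H.a₄_mem)
      (mul_mem H.a₁ hy))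
  have hym : y ∈ A.nonunits := KerTors.mem_nu_of_sq_mem_nu A hy2
  rcases hns with h1 | h1
  · apply h1
    refine nu_sub A (nu_mul_right A H.a₁ hym) (nu_add A (nu_add A ?_ ?_) H.a₄)
    · exact nu_mul_right A h3 (by rw [sq]; exact nu_mul_left A hxm hx)
    · exact nu_mul_right A (mul_mem h2 H.a₂) hxm
  · apply h1
    rw [H.a₃, add_zero]
    exact nu_add A (nu_mul_right A h2 hym) (nu_mul_right A H.a₁ hxm)

end Node

section Residue

variable {K : Type*} [Field K] (A : ValuationSubring K) (W : WeierstrassCurve ℤ)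

/-- the frozen residue-field nonsingularity implies `NonsingularRed` -/
theorem nonsingularRed_of_residue {x y : K} (hx : x ∈ A) (hy : y ∈ A)
    (h : (W.map (Int.castRingHom (ResidueField A))).toAffine.Nonsingular
      (residue A ⟨x, hx⟩) (residue A ⟨y, hy⟩)) :
    NonsingularRed A (W.map (Int.castRingHom K)) x y := by
  rw [Affine.nonsingular_iff'] at h
  obtain ⟨-, h⟩ := h
  simp only [WeierstrassCurve.map_a₁, WeierstrassCurve.map_a₂, WeierstrassCurve.map_a₃,
    WeierstrassCurve.map_a₄, eq_intCast] at h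
  rw [← resK_of_mem A hx, ← resK_of_mem A hy] at h
  unfold NonsingularRed
  simp only [WeierstrassCurve.map_a₁, WeierstrassCurve.map_a₂, WeierstrassCurve.map_a₃,
    WeierstrassCurve.map_a₄, eq_intCast]
  have i1 : ((W.a₁ : ℤ) : K) ∈ A := intCast_mem' _
  have i2 : ((W.a₂ : ℤ) : K) ∈ A := intCast_mem' _
  have i3 : ((W.a₃ : ℤ) : K) ∈ A := intCast_mem' _
  have i4 : ((W.a₄ : ℤ) : K) ∈ A := intCast_mem' _
  have m2 : (2 : K) ∈ A := ofNat_mem A 2
  have m3 : (3 : K) ∈ A := ofNat_mem A 3
  have hx2 : x ^ 2 ∈ A := pow_mem hx 2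
  rcases h with h1 | h1
  · left
    intro hm
    apply h1
    have mD : 3 * x ^ 2 + 2 * (W.a₂ : K) * x + (W.a₄ : K) ∈ A :=
      add_mem (add_mem (mul_mem m3 hx2) (mul_mem (mul_mem m2 i2) hx)) i4
    have := (resK_eq_zero_iff (sub_mem (mul_mem i1 hy) mD)).2 hm
    rw [resK_sub (mul_mem i1 hy) mD, resK_mul i1 hy,
      resK_add (add_mem (mul_mem m3 hx2) (mul_mem (mul_mem m2 i2) hx)) i4,
      resK_add (mul_mem m3 hx2) (mul_mem (mul_mem m2 i2) hx), resK_mul m3 hx2, resK_pow hx,
      resK_mul (mul_mem m2 i2) hx, resK_mul m2 i2, resK_ofNat, resK_ofNat, resK_intCast,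
      resK_intCast, resK_intCast] at this
    exact this
  · right
    intro hm
    apply h1
    have mD : 2 * y + (W.a₁ : K) * x + (W.a₃ : K) ∈ A :=
      add_mem (add_mem (mul_mem m2 hy) (mul_mem i1 hx)) i3
    have := (resK_eq_zero_iff mD).2 hm
    rw [resK_add (add_mem (mul_mem m2 hy) (mul_mem i1 hx)) i3,
      resK_add (mul_mem m2 hy) (mul_mem i1 hx), resK_mul m2 hy, resK_mul i1 hx, resK_ofNat,
      resK_intCast, resK_intCast] at this
    exact this

end Residue

section Rat

variable {K : Type*} [Field K] [CharZero K] {A : ValuationSubring K} {l : ℕ}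
  [Fact l.Prime] [CharP (ResidueField A) l]

/-- a rational number lying in `A` has Frobenius-fixed residue -/
theorem fixK_ratCast (hA : A.LiesOverPrime l) (q : ℚ) (hq : (q : K) ∈ A) : FixK A l (q : K) := by
  have hl : l.Prime := Fact.out
  have hden : ((q.den : ℕ) : K) ∉ A.nonunits := by
    intro hd
    have hnum : ((q.num : ℤ) : K) ∈ A.nonunits := by
      have e : ((q.num : ℤ) : K) = (q : K) * (q.den : K) := by
        have hd0 : ((q.den : ℕ) : K) ≠ 0 := Nat.cast_ne_zero.2 q.den_nz
        rw [Rat.cast_def, div_mul_cancel₀ _ hd0]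
      rw [e]
      exact nu_mul_right A hq hd
    have h1 : l ∣ q.den := (natCast_mem_nonunits_iff hl hA _).1 hd
    have h2 : (l : ℤ) ∣ q.num := (intCast_mem_nonunits_iff hl hA _).1 hnum
    have h3 : l ∣ q.num.natAbs := Int.natCast_dvd.1 h2
    have := Nat.Coprime.eq_one_of_dvd (Nat.Coprime.coprime_dvd_left h3 q.reduced) h1
    exact hl.one_lt.ne' this
  rw [Rat.cast_def]
  exact (FixK.intCast q.num).div (FixK.natCast q.den) hden

end Rat

end Fermat.Agent.GZ.Cut
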