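/-
GATE-Z / node (CUT), file 5: the statement.

`W : WeierstrassCurve ℤ`, `Q` a `G_ℚ`-fixed point of order `p` of `W(ℚ̄)`, `ℓ ≠ p` a prime of
multiplicative reduction (`ℓ ∣ Δ`, `ℓ ∤ c₄`), `A` a valuation subring of `ℚ̄` over `ℓ`.  If `Q` lies
in the zero component at `A` (frozen `WeierstrassCurve.InZeroComponentAt`), then
`p ∣ ℓ - 1 ∨ p ∣ ℓ + 1`.

Proof: `A`-integral translation to a node model (`GE/Unip/NodeChange.exists_nodeHyp`); `Q` becomes
a point `P` of `E₀ ∖ E₁`; `uRes P` has order exactly `p` in the residue field (`UMap`); the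
Frobenius `z ↦ z ^ ℓ` of the residue field fixes the residues of the coordinates of `P` and
permutes the two tangent directions at the node, so `uRes P ^ ℓ = (uRes P)^{±1}` (`Frob`).
-/
import Fermat.Agent.GZ.Cut.Bridge
import Fermat.Prelude.Def_EllipticCurve_ZeroComponentAt
import Fermat.Prelude.Def_FLTPrelim_Ramification

set_option autoImplicit false
set_option linter.unusedSectionVars false

namespace Fermat.Agent.GZ.Cut

open IsLocalRing WeierstrassCurve WeierstrassCurve.Affine WeierstrassCurve.Affine.Point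
open Fermat.Agent.S05 Fermat.Agent.S05.SameRed Fermat.Agent.S13.NodeInertia
open Fermat.Agent.S13.NodeGen Fermat.Agent.GE.Unip

/-- a `G_ℚ`-fixed element of `ℚ̄` is rational -/
theorem exists_ratCast_of_fixed (x : AlgebraicClosure ℚ)
    (hx : ∀ σ : AlgebraicClosure ℚ ≃ₐ[ℚ] AlgebraicClosure ℚ, σ x = x) :
    ∃ q : ℚ, (q : AlgebraicClosure ℚ) = x := by
  have : IsAlgClosure ℚ (AlgebraicClosure ℚ) := ⟨inferInstance, inferInstance⟩
  have : IsGalois ℚ (AlgebraicClosure ℚ) := IsAlgClosure.isGalois ℚ _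
  have h := (InfiniteGalois.mem_bot_iff_fixed (k := ℚ) (K := AlgebraicClosure ℚ) x).2 hx
  obtain ⟨q, hq⟩ := IntermediateField.mem_bot.1 h
  exact ⟨q, by rw [← hq, eq_ratCast]⟩

/-- **(CUT).**  A rational point of prime order `p` lying in the zero component at a prime
`ℓ ≠ p` of multiplicative reduction forces `p ∣ ℓ - 1` or `p ∣ ℓ + 1`. -/
theorem dvd_pred_or_dvd_succ
    {p : ℕ} (hp : p.Prime) (W : WeierstrassCurve ℤ) (hΔ : W.Δ ≠ 0)
    (Q : ((W.map (Int.castRingHom ℚ))⁄(AlgebraicClosure ℚ)).Point)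
    (hQfix : ∀ σ : AlgebraicClosure ℚ ≃ₐ[ℚ] AlgebraicClosure ℚ, σ • Q = Q)
    (hQord : addOrderOf Q = p)
    {ℓ : ℕ} (hℓ : ℓ.Prime) (hℓp : ℓ ≠ p) (hℓΔ : (ℓ : ℤ) ∣ W.Δ) (hℓc₄ : ¬ (ℓ : ℤ) ∣ W.c₄)
    (A : ValuationSubring (AlgebraicClosure ℚ)) (hA : A.LiesOverPrime ℓ)
    (h0 : W.InZeroComponentAt A Q) : p ∣ ℓ - 1 ∨ p ∣ ℓ + 1 := by
  have hW := baseChange_integralCoeffs W A
  have hΔnu : ((W.map (Int.castRingHom ℚ)).baseChange (AlgebraicClosure ℚ)).Δ ∈ A.nonunits := by
    rw [baseChange_Δ_eq, intCast_mem_nonunits_iff hℓ hA]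
    exact hℓΔ
  have hΔ0 : ((W.map (Int.castRingHom ℚ)).baseChange (AlgebraicClosure ℚ)).Δ ≠ 0 := by
    rw [baseChange_Δ_eq]
    exact_mod_cast hΔ
  have hc₄ : ((W.map (Int.castRingHom ℚ)).baseChange (AlgebraicClosure ℚ)).c₄ ∉ A.nonunits := by
    rw [baseChange_c₄_eq, intCast_mem_nonunits_iff hℓ hA]
    exact hℓc₄
  obtain ⟨r, t, hr, ht, H⟩ := exists_nodeHyp hW hΔnu hΔ0 hc₄
  obtain ⟨α, hα⟩ := exists_root
    (transl r t • (W.map (Int.castRingHom ℚ)).baseChange (AlgebraicClosure ℚ)).a₁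
    (transl r t • (W.map (Int.castRingHom ℚ)).baseChange (AlgebraicClosure ℚ)).a₂
  have M := H.gModel hα
  have hpA : ((p : ℕ) : AlgebraicClosure ℚ) ∉ A.nonunits := by
    rw [natCast_mem_nonunits_iff hℓ hA]
    intro h
    exact hℓp ((Nat.prime_dvd_prime_iff_eq hℓ hp).1 h)
  have hQ0 : Q ≠ 0 := by
    intro h
    rw [h, addOrderOf_zero] at hQord
    exact hp.ne_one hQord.symm
  have hpQ : p • Q = 0 := by
    rw [← hQord]
    exact addOrderOf_nsmul_eq_zero Q
  rcases h0 with h0 | ⟨x, y, h, rfl, hcase⟩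
  · exact absurd h0 hQ0
  have hB : KR.IntegralB A ((W.map (Int.castRingHom ℚ))⁄(AlgebraicClosure ℚ)) :=
    KR.integralB_of_a A _ hW.a₁ hW.a₂ hW.a₃ hW.a₄ hW.a₆
  have hxA : x ∈ A := KR.x_mem_of_nsmul_eq_zero hB hpA h hpQ
  rcases hcase with hx | ⟨hx, hy, hns⟩
  · exact absurd hxA hx
  -- nonsingular reduction, on `W` and on the node model
  have hns' : NonsingularRed A ((W.map (Int.castRingHom ℚ)).baseChange (AlgebraicClosure ℚ))
      x y := by
    rw [baseChange_coeff_eq]
    exact nonsingularRed_of_residue A W hx hy hns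
  have hns'' : NonsingularRed A
      (transl r t • (W.map (Int.castRingHom ℚ)).baseChange (AlgebraicClosure ℚ))
      (x - r) (y - t) := by
    rw [nonsingularRed_transl_iff, sub_add_cancel, sub_add_cancel]
    exact hns'
  have hnode : (transl r t • (W.map (Int.castRingHom ℚ)).baseChange
      (AlgebraicClosure ℚ)).toAffine.Nonsingular (x - r) (y - t) := by
    rw [vc_nonsingular_iff, vcX_transl, vcY_transl, sub_add_cancel, sub_add_cancel]
    exact h
  have hPQ : vcPointEquiv ((W.map (Int.castRingHom ℚ)).baseChange (AlgebraicClosure ℚ))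
      (transl r t) (Point.some (x - r) (y - t) hnode) = Point.some x y h := by
    rw [vcPointEquiv_some]
    apply pt_congr
    · rw [vcX_transl, sub_add_cancel]
    · rw [vcY_transl, sub_add_cancel]
  have hpP : p • (Point.some (x - r) (y - t) hnode :
      (transl r t • (W.map (Int.castRingHom ℚ)).baseChange
        (AlgebraicClosure ℚ)).toAffine.Point) = 0 := by
    apply (vcPointEquiv ((W.map (Int.castRingHom ℚ)).baseChange (AlgebraicClosure ℚ))
      (transl r t)).injective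
    rw [map_nsmul, hPQ, hpQ, _root_.map_zero]
  have hP0 : (Point.some (x - r) (y - t) hnode :
      (transl r t • (W.map (Int.castRingHom ℚ)).baseChange
        (AlgebraicClosure ℚ)).toAffine.Point) ≠ 0 := by
    simp [Point.zero_def]
  have hxr : x - r ∈ A := sub_mem hx hr
  have hyt : y - t ∈ A := sub_mem hy ht
  have hxu : x - r ∉ A.nonunits := x_unit_of_nonsingularRed H hnode.1 hxr hyt hns''
  have hvx : A.valuation (x - r) = 1 := by
    apply le_antisymm ((ValuationSubring.valuation_le_one_iff A _).2 hxr)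
    by_contra hlt
    push Not at hlt
    exact hxu ((ValuationSubring.mem_nonunits_iff A).2 hlt)
  have hE0 : InE0 A.valuation
      (transl r t • (W.map (Int.castRingHom ℚ)).baseChange (AlgebraicClosure ℚ))
      (Point.some (x - r) (y - t) hnode) := (inE0_some hnode).2 hvx.ge
  obtain ⟨hU, hord⟩ := orderOf_uRes H hα hp hpA _ hpP hP0 hE0
  -- Frobenius
  have : Fact ℓ.Prime := ⟨hℓ⟩
  have : CharP (ResidueField A) ℓ := charP_res hℓ hA
  have F : FixCoeffs A ℓ ((W.map (Int.castRingHom ℚ)).baseChange (AlgebraicClosure ℚ)) := by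
    rw [baseChange_coeff_eq]
    refine ⟨?_, ?_, ?_, ?_, ?_⟩ <;>
      simp only [WeierstrassCurve.map_a₁, WeierstrassCurve.map_a₂, WeierstrassCurve.map_a₃,
        WeierstrassCurve.map_a₄, WeierstrassCurve.map_a₆, eq_intCast] <;>
      exact FixK.intCast _
  obtain ⟨fr, ft⟩ := fixK_translation F hr ht H
  -- rationality of the coordinates
  have hfix : ∀ σ : AlgebraicClosure ℚ ≃ₐ[ℚ] AlgebraicClosure ℚ, σ x = x ∧ σ y = y := by
    intro σ
    have h1 : (Point.some (σ x) (σ y)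
          ((Affine.baseChange_nonsingular (W.map (Int.castRingHom ℚ)) σ.toAlgHom.injective
            x y).mpr h) : ((W.map (Int.castRingHom ℚ))⁄(AlgebraicClosure ℚ)).Point) =
        Point.some x y h := hQfix σ
    injection h1 with h1 h2
    exact ⟨h1, h2⟩
  obtain ⟨qx, hqx⟩ := exists_ratCast_of_fixed x (fun σ => (hfix σ).1)
  obtain ⟨qy, hqy⟩ := exists_ratCast_of_fixed y (fun σ => (hfix σ).2)
  have fx0 : FixK A ℓ x := by
    rw [← hqx]
    exact fixK_ratCast hA qx (by rw [hqx]; exact hx)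
  have fy0 : FixK A ℓ y := by
    rw [← hqy]
    exact fixK_ratCast hA qy (by rw [hqy]; exact hy)
  have f₁ : FixK A ℓ
      (transl r t • (W.map (Int.castRingHom ℚ)).baseChange (AlgebraicClosure ℚ)).a₁ := by
    rw [transl_a₁]
    exact F.a₁
  have f₂ : FixK A ℓ
      (transl r t • (W.map (Int.castRingHom ℚ)).baseChange (AlgebraicClosure ℚ)).a₂ := by
    rw [transl_a₂]
    exact F.a₂.add ((FixK.ofNat 3).mul fr)
  have hfrob := uRes_frob M f₁ f₂ hnode hvx (fx0.sub fr) (fy0.sub ft)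
  exact dvd_of_orderOf hord (uRes_ne_zero M hU) hℓ.one_le hfrob

end Fermat.Agent.GZ.Cut
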