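/-
GATE-Z / node (CUT), plug: the contract `Fermat.Agent.GZ.Top.Cut p W Q` of `GZ/Top/S15Top.lean`
(consumed by `s15_of_nodes` and by `s15_of_nodes_B`) from the binders of the frozen `S15`.
-/
import Fermat.Agent.GZ.Cut.Main
import Fermat.Agent.GZ.Top.S15Top

set_option autoImplicit false

namespace Fermat.Agent.GZ.Cut

open WeierstrassCurve
open scoped WeierstrassCurve.Affine

/-- **(CUT) in the contract shape of `GZ/Top/S15Top.lean`.** -/
theorem cut_of_binders {p : ℕ} (hp : p.Prime) (W : WeierstrassCurve ℤ) (hΔ : W.Δ ≠ 0)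
    (Q : ((W.map (Int.castRingHom ℚ))⁄(AlgebraicClosure ℚ)).Point)
    (hQfix : ∀ σ : AlgebraicClosure ℚ ≃ₐ[ℚ] AlgebraicClosure ℚ, σ • Q = Q)
    (hQord : addOrderOf Q = p) : Fermat.Agent.GZ.Top.Cut p W Q :=
  fun _ hℓ hℓp hℓΔ hℓc₄ A hA hin =>
    dvd_pred_or_dvd_succ hp W hΔ Q hQfix hQord hℓ hℓp hℓΔ hℓc₄ A hA hin

end Fermat.Agent.GZ.Cut
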